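import Mathlib

/-!
# S18, generic algebra for packages DED / T (helper6052): discriminant criterion for normality

Mathlib-only.  Main result `not_dvd_det_of_discr` (= the counting argument (4.0)-(4.1) of
`notes/S18_route_helper6262.md`, = step (LL4) of helper9198's local lemma):

`R` a domain, `κ` a residue field of `R` (surjection `R → κ` with kernel contained in `(s)`),
`B → C` an injective homomorphism of `R`-algebras, both free of the same finite rank `n`
(think: `C` = integral closure of `B`).  If `s ^ (a + 1)` does not divide `discr B` and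
`a + Z ≤ n`, where `Z = dim_κ (κ ⊗ B)_red`, then `s` does not divide `det (B → C)`.

Ingredients (all proved here):
* `pow_dvd_det_of_rank_le`: `s ^ corank(G mod s)` divides `det G`;
* `rank_traceMatrix_add_le`: the Gram matrix of the trace form of a finite dimensional algebra has
  rank at most the dimension of the reduced quotient;
* `finrank_range_algHom_add_le`: rank of an algebra map `F → G` is at most
  `dim F_red + dim Nil(G)`;
* `discr_eq_det_sq_mul`: `discr B = det(B → C)^2 * discr C` (traces agree: `trace_eq_of_injective`).
-/

set_option autoImplicit false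

open Module
open scoped TensorProduct Matrix

namespace Fermat.Agent.S18.DED6052

section Det

variable {R κ : Type*} [CommRing R] [Field κ] {n : Type*} [Fintype n] [DecidableEq n]

/-- A product of transvections over `κ` lifts to a matrix of determinant one over `R`. -/
theorem exists_lift_transvections (φ : R →+* κ) (hφ : Function.Surjective φ)
    (L : List (Matrix.TransvectionStruct n κ)) :
    ∃ P : Matrix n n R, P.det = 1 ∧
      P.map φ = (L.map Matrix.TransvectionStruct.toMatrix).prod := by
  induction L with
  | nil => exact ⟨1, by simp, by simp⟩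
  | cons t L ih =>
    obtain ⟨P, hP1, hP2⟩ := ih
    obtain ⟨c, hc⟩ := hφ t.c
    refine ⟨Matrix.transvection t.i t.j c * P, ?_, ?_⟩
    · rw [Matrix.det_mul, Matrix.det_transvection_of_ne _ _ t.hij, hP1, one_mul]
    · rw [Matrix.map_mul, hP2, List.map_cons, List.prod_cons]
      congr 1
      ext a b
      simp [Matrix.TransvectionStruct.toMatrix, Matrix.transvection, Matrix.map_apply,
        Matrix.add_apply, Matrix.one_apply, Matrix.single_apply]
      split_ifs <;> simp [hc]

/-- **Fact (*)**: the determinant of a square matrix over `R` is divisible by `s ^ corank`,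
where the corank is computed after applying a surjection `φ : R → κ` onto a field whose kernel
is contained in `(s)`. -/
theorem pow_dvd_det_of_rank_le (φ : R →+* κ) (hφ : Function.Surjective φ) (s : R)
    (hker : ∀ x, φ x = 0 → s ∣ x) (G : Matrix n n R) (r : ℕ) (hr : (G.map φ).rank ≤ r) :
    s ^ (Fintype.card n - r) ∣ G.det := by
  classical
  obtain ⟨L, L', D, hD⟩ :=
    Matrix.Pivot.exists_list_transvec_mul_mul_list_transvec_eq_diagonal (G.map φ)
  obtain ⟨P, hP1, hP2⟩ := exists_lift_transvections φ hφ L
  obtain ⟨Q, hQ1, hQ2⟩ := exists_lift_transvections φ hφ L'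
  set G' : Matrix n n R := P * G * Q with hG'
  have hdet : G'.det = G.det := by
    rw [hG', Matrix.det_mul, Matrix.det_mul, hP1, hQ1, one_mul, mul_one]
  have hmap : G'.map φ = Matrix.diagonal D := by
    rw [hG', Matrix.map_mul, Matrix.map_mul, hP2, hQ2, hD]
  -- rank of the diagonal matrix
  have hrank : (Matrix.diagonal D).rank = (G.map φ).rank := by
    rw [← hD]
    have h1 : IsUnit ((L.map Matrix.TransvectionStruct.toMatrix).prod).det := by
      rw [Matrix.TransvectionStruct.det_toMatrix_prod]; exact isUnit_one
    have h2 : IsUnit ((L'.map Matrix.TransvectionStruct.toMatrix).prod).det := by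
      rw [Matrix.TransvectionStruct.det_toMatrix_prod]; exact isUnit_one
    rw [Matrix.rank_mul_eq_left_of_isUnit_det _ _ h2, Matrix.rank_mul_eq_right_of_isUnit_det _ _ h1]
  rw [Matrix.rank_diagonal] at hrank
  -- the rows with `D i = 0`
  set S : Finset n := Finset.univ.filter (fun i => D i = 0) with hS
  have hcard : Fintype.card n - r ≤ S.card := by
    have h3 : Fintype.card {i // D i ≠ 0} + S.card = Fintype.card n := by
      have h4 := Finset.card_filter_add_card_filter_not (s := (Finset.univ : Finset n))
        (fun i => D i = 0)
      rw [Fintype.card_subtype, hS, ← Finset.card_univ (α := n), ← h4, add_comm]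
    omega
  have hrow : ∀ i, D i = 0 → ∀ j, s ∣ G' i j := by
    intro i hi j
    apply hker
    have := congrFun (congrFun hmap i) j
    rw [Matrix.map_apply] at this
    rw [this, Matrix.diagonal_apply]
    split_ifs <;> simp [hi]
  choose! q hq using hrow
  set G'' : Matrix n n R := fun i j => if D i = 0 then q i j else G' i j with hG''
  have hfac : G' = Matrix.diagonal (fun i => if D i = 0 then s else 1) * G'' := by
    ext i j
    rw [Matrix.diagonal_mul, hG'']
    by_cases hi : D i = 0
    · simp only [hi, if_true]
      exact hq i hi j
    · simp only [hi, if_false, one_mul]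
  have hdet2 : G'.det = s ^ S.card * G''.det := by
    rw [hfac, Matrix.det_mul, Matrix.det_diagonal, Finset.prod_ite, Finset.prod_const,
      Finset.prod_const_one, mul_one, hS]
  rw [← hdet, hdet2]
  exact Dvd.dvd.mul_right (pow_dvd_pow s hcard) _

end Det

section Fibre

variable {R κ : Type*} [CommRing R] [Field κ] [Algebra R κ]
variable {B : Type*} [CommRing B] [Algebra R B]
variable {ι : Type*} [Fintype ι] [DecidableEq ι]

/-- trace commutes with base change -/
theorem trace_one_tmul [Module.Free R B] [Module.Finite R B] (x : B) :
    Algebra.trace κ (κ ⊗[R] B) ((1 : κ) ⊗ₜ[R] x) = algebraMap R κ (Algebra.trace R B x) := by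
  rw [Algebra.trace_apply, ← Algebra.baseChange_lmul, LinearMap.trace_baseChange,
    ← Algebra.trace_apply]

omit [DecidableEq ι] in
/-- the Gram matrix of the fibre is the reduction of the Gram matrix -/
theorem traceMatrix_fibre (b : Basis ι R B) :
    Algebra.traceMatrix κ (Algebra.TensorProduct.basis κ b) =
      (Algebra.traceMatrix R b).map (algebraMap R κ) := by
  have : Module.Free R B := Module.Free.of_basis b
  have : Module.Finite R B := Module.Finite.of_basis b
  ext i j
  rw [Matrix.map_apply, Algebra.traceMatrix_apply, Algebra.traceMatrix_apply,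
    Algebra.traceForm_apply, Algebra.traceForm_apply, Algebra.TensorProduct.basis_apply,
    Algebra.TensorProduct.basis_apply, Algebra.TensorProduct.tmul_mul_tmul, one_mul,
    trace_one_tmul]

end Fibre

section Field

variable {κ : Type*} [Field κ] {F : Type*} [CommRing F] [Algebra κ F] [FiniteDimensional κ F]
variable {ι : Type*} [Fintype ι] [DecidableEq ι]

omit [FiniteDimensional κ F] in
/-- nilpotent elements lie in the radical of the trace form -/
theorem trace_mul_eq_zero_of_mem_nilradical {x : F} (hx : x ∈ nilradical F) (y : F) :
    Algebra.trace κ F (x * y) = 0 := by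
  have hx' : IsNilpotent x := mem_nilradical.mp hx
  have h1 : IsNilpotent (x * y) := (Commute.all x y).isNilpotent_mul_right hx'
  exact (Algebra.isNilpotent_trace_of_isNilpotent h1).eq_zero

/-- a linear map killing a submodule `W` has rank at most the codimension -/
theorem finrank_range_le_of_le_ker {V W : Type*} [AddCommGroup V] [Module κ V]
    [FiniteDimensional κ V] [AddCommGroup W] [Module κ W] (T : V →ₗ[κ] W) (N : Submodule κ V)
    (h : N ≤ LinearMap.ker T) : finrank κ (LinearMap.range T) + finrank κ N ≤ finrank κ V := by
  have h1 := LinearMap.finrank_range_add_finrank_ker T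
  have h2 := Submodule.finrank_mono h
  omega

/-- the rank of the Gram matrix of the trace form is at most the dimension of the reduced
quotient -/
theorem rank_traceMatrix_add_le (b : Basis ι κ F) :
    (Algebra.traceMatrix κ b).rank + finrank κ ((nilradical F).restrictScalars κ) ≤
      Fintype.card ι := by
  classical
  -- the linear map `x ↦ (j ↦ tr (x * b j))`
  let T : F →ₗ[κ] (ι → κ) := LinearMap.pi fun j => (Algebra.trace κ F).comp (LinearMap.mulRight κ (b j))
  have hT : Matrix.toLin b (Pi.basisFun κ ι) (Algebra.traceMatrix κ b) = T := by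
    refine b.ext fun j => ?_
    rw [Matrix.toLin_self]
    ext i
    simp only [T, LinearMap.pi_apply, LinearMap.comp_apply, LinearMap.mulRight_apply,
      Finset.sum_apply, Pi.smul_apply, Pi.basisFun_apply, Pi.single_apply, smul_eq_mul,
      mul_ite, mul_one, mul_zero, Algebra.traceMatrix_apply, Algebra.traceForm_apply]
    rw [Finset.sum_ite_eq, if_pos (Finset.mem_univ _), mul_comm]
  rw [Matrix.rank_eq_finrank_range_toLin (Algebra.traceMatrix κ b) (Pi.basisFun κ ι) b, hT]
  have hker : (nilradical F).restrictScalars κ ≤ LinearMap.ker T := by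
    intro x hx
    rw [LinearMap.mem_ker]
    ext j
    simp only [T, LinearMap.pi_apply, LinearMap.comp_apply, LinearMap.mulRight_apply,
      Pi.zero_apply]
    exact trace_mul_eq_zero_of_mem_nilradical (κ := κ) hx (b j)
  have := finrank_range_le_of_le_ker T _ hker
  rw [finrank_eq_card_basis b] at this
  exact this

end Field

section Rank

variable {κ : Type*} [Field κ] {F G : Type*} [CommRing F] [Algebra κ F] [FiniteDimensional κ F]
  [CommRing G] [Algebra κ G] [FiniteDimensional κ G]

/-- a subspace is at most as large as its image plus the kernel -/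
theorem finrank_le_finrank_map_add {V Q : Type*} [AddCommGroup V] [Module κ V]
    [FiniteDimensional κ V] [AddCommGroup Q] [Module κ Q] (q : V →ₗ[κ] Q) (W : Submodule κ V) :
    finrank κ W ≤ finrank κ (W.map q) + finrank κ (LinearMap.ker q) := by
  have h1 := LinearMap.finrank_range_add_finrank_ker (q.domRestrict W)
  have h2 : LinearMap.range (q.domRestrict W) = W.map q := LinearMap.range_domRestrict _ _
  have h3 : finrank κ (LinearMap.ker (q.domRestrict W)) ≤ finrank κ (LinearMap.ker q) := by
    let φ : LinearMap.ker (q.domRestrict W) →ₗ[κ] LinearMap.ker q :=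
      (W.subtype.comp (LinearMap.ker (q.domRestrict W)).subtype).codRestrict (LinearMap.ker q)
        (fun x => by
          have := x.2
          rw [LinearMap.mem_ker, LinearMap.domRestrict_apply] at this
          rw [LinearMap.mem_ker]
          exact this)
    refine LinearMap.finrank_le_finrank_of_injective (f := φ) ?_
    intro x y hxy
    have := congrArg Subtype.val hxy
    simp only [φ, LinearMap.codRestrict_apply, LinearMap.comp_apply, Submodule.subtype_apply] at this
    exact Subtype.ext (Subtype.ext this)
  rw [h2] at h1
  omega

/-- the rank of an algebra hom between finite dimensional algebras is bounded by the dimension of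
the reduced quotient of the source plus the dimension of the nilradical of the target -/
theorem finrank_range_algHom_add_le (g : F →ₐ[κ] G) :
    finrank κ (LinearMap.range g.toLinearMap) + finrank κ ((nilradical F).restrictScalars κ) ≤
      finrank κ F + finrank κ ((nilradical G).restrictScalars κ) := by
  set NG : Submodule κ G := (nilradical G).restrictScalars κ with hNG
  set NF : Submodule κ F := (nilradical F).restrictScalars κ with hNF
  let h : F →ₗ[κ] G ⧸ NG := NG.mkQ.comp g.toLinearMap
  have hker : NF ≤ LinearMap.ker h := by
    intro x hx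
    rw [LinearMap.mem_ker]
    simp only [h, LinearMap.comp_apply, Submodule.mkQ_apply, Submodule.Quotient.mk_eq_zero]
    have hx' : IsNilpotent x := mem_nilradical.mp hx
    exact mem_nilradical.mpr (hx'.map g)
  have h1 := finrank_range_le_of_le_ker h NF hker
  have h2 := finrank_le_finrank_map_add NG.mkQ (LinearMap.range g.toLinearMap)
  have h3 : (LinearMap.range g.toLinearMap).map NG.mkQ = LinearMap.range h := by
    rw [LinearMap.range_comp]
  rw [h3, Submodule.ker_mkQ] at h2
  omega

end Rank

section Discr

variable {R : Type*} [CommRing R] [IsDomain R] {B C : Type*} [CommRing B] [Algebra R B]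
  [CommRing C] [Algebra R C]
variable {ι : Type*} [Fintype ι] [DecidableEq ι]

theorem det_toMatrix_ne_zero (b : Basis ι R B) (c : Basis ι R C) (f : B →ₗ[R] C)
    (hf : Function.Injective f) : (LinearMap.toMatrix b c f).det ≠ 0 := by
  intro h
  obtain ⟨v, hv, hMv⟩ := Matrix.exists_mulVec_eq_zero_iff.mpr h
  apply hv
  have h1 := LinearMap.toMatrix_mulVec_repr b c f (b.equivFun.symm v)
  have h2 : (b.repr (b.equivFun.symm v) : ι → R) = v := by
    rw [← Basis.equivFun_apply]
    exact b.equivFun.apply_symm_apply v
  rw [h2, hMv] at h1
  have h3 : f (b.equivFun.symm v) = 0 := by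
    apply c.repr.injective
    ext i
    have := congrFun h1 i
    simpa using this.symm
  have h4 : b.equivFun.symm v = 0 := hf (by rw [h3, map_zero])
  exact (LinearEquiv.map_eq_zero_iff _).mp h4

theorem trace_eq_of_injective (b : Basis ι R B) (c : Basis ι R C) (f : B →ₐ[R] C)
    (hf : Function.Injective f) (x : B) :
    Algebra.trace R C (f x) = Algebra.trace R B x := by
  set M := LinearMap.toMatrix b c f.toLinearMap with hM
  have hMdet : M.det ≠ 0 := det_toMatrix_ne_zero b c f.toLinearMap hf
  have hcomm : M * Algebra.leftMulMatrix b x = Algebra.leftMulMatrix c (f x) * M := by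
    rw [Algebra.leftMulMatrix_apply, Algebra.leftMulMatrix_apply, hM,
      ← LinearMap.toMatrix_comp b b c, ← LinearMap.toMatrix_comp b c c]
    congr 1
    ext y
    simp
  rw [Algebra.trace_eq_matrix_trace b, Algebra.trace_eq_matrix_trace c]
  apply mul_left_cancel₀ hMdet
  calc M.det * Matrix.trace (Algebra.leftMulMatrix c (f x))
      = Matrix.trace (Algebra.leftMulMatrix c (f x) * (M * M.adjugate)) := by
        rw [Matrix.mul_adjugate, Matrix.mul_smul, Matrix.trace_smul, mul_one, smul_eq_mul]
    _ = Matrix.trace ((M * Algebra.leftMulMatrix b x) * M.adjugate) := by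
        rw [hcomm, Matrix.mul_assoc]
    _ = Matrix.trace (M.adjugate * (M * Algebra.leftMulMatrix b x)) := Matrix.trace_mul_comm _ _
    _ = M.det * Matrix.trace (Algebra.leftMulMatrix b x) := by
        rw [← Matrix.mul_assoc, Matrix.adjugate_mul, Matrix.smul_mul, Matrix.trace_smul, one_mul,
          smul_eq_mul]

theorem discr_eq_det_sq_mul (b : Basis ι R B) (c : Basis ι R C) (f : B →ₐ[R] C)
    (hf : Function.Injective f) :
    Algebra.discr R b = (LinearMap.toMatrix b c f.toLinearMap).det ^ 2 * Algebra.discr R c := by
  have h1 : Algebra.discr R b = Algebra.discr R (f ∘ b) := by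
    rw [Algebra.discr_def, Algebra.discr_def]
    congr 1
    ext i j
    simp only [Algebra.traceMatrix_apply, Algebra.traceForm_apply, Function.comp_apply, ← map_mul,
      trace_eq_of_injective b c f hf]
  have h2 : (f ∘ b) = c ᵥ* ((LinearMap.toMatrix b c f.toLinearMap).map (algebraMap R C)) := by
    ext j
    simp only [Function.comp_apply, Matrix.vecMul, dotProduct, Matrix.map_apply,
      LinearMap.toMatrix_apply, AlgHom.toLinearMap_apply]
    conv_lhs => rw [← c.sum_repr (f (b j))]
    refine Finset.sum_congr rfl fun i _ => ?_
    rw [Algebra.smul_def, mul_comm]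
  rw [h1, h2, Algebra.discr_of_matrix_vecMul]

end Discr

section Main

variable {R κ : Type*} [CommRing R] [IsDomain R] [Field κ] [Algebra R κ]
variable {B C : Type*} [CommRing B] [Algebra R B] [CommRing C] [Algebra R C]
variable {ι : Type*} [Fintype ι] [DecidableEq ι]

/-- dimension count for the reduced quotient of a finite dimensional algebra -/
theorem finrank_quot_nilradical_add {F : Type*} [CommRing F] [Algebra κ F]
    [FiniteDimensional κ F] :
    finrank κ (F ⧸ nilradical F) + finrank κ ((nilradical F).restrictScalars κ) = finrank κ F := by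
  rw [← (Submodule.Quotient.restrictScalarsEquiv κ (nilradical F)).finrank_eq]
  exact Submodule.finrank_quotient_add_finrank _

/-- **Discriminant criterion (local form).**  `B → C` an injective homomorphism of `R`-algebras,
both free of the same finite rank, `κ` a residue field of `R` with kernel contained in `(s)`.
If the discriminant of `B` is not divisible by `s ^ (a + 1)` and `a + Z ≤ rank`, where `Z` is the
dimension of the reduced special fibre of `B`, then `s` does not divide the determinant of
`B → C` (so that `B → C` is an isomorphism locally at `s`). -/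
theorem not_dvd_det_of_discr
    (hφ : Function.Surjective (algebraMap R κ)) (s : R)
    (hker : ∀ x, algebraMap R κ x = 0 → s ∣ x)
    (b : Basis ι R B) (c : Basis ι R C) (f : B →ₐ[R] C) (hf : Function.Injective f)
    (a : ℕ) (ha : ¬ s ^ (a + 1) ∣ Algebra.discr R b)
    (hZ : a + finrank κ ((κ ⊗[R] B) ⧸ nilradical (κ ⊗[R] B)) ≤ Fintype.card ι) :
    ¬ s ∣ (LinearMap.toMatrix b c f.toLinearMap).det := by
  classical
  intro hdvd
  set bκ := Algebra.TensorProduct.basis κ b with hbκ
  set cκ := Algebra.TensorProduct.basis κ c with hcκ
  have : FiniteDimensional κ (κ ⊗[R] B) := Module.Finite.of_basis bκ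
  have : FiniteDimensional κ (κ ⊗[R] C) := Module.Finite.of_basis cκ
  have hnB : finrank κ (κ ⊗[R] B) = Fintype.card ι := finrank_eq_card_basis bκ
  have hnC : finrank κ (κ ⊗[R] C) = Fintype.card ι := finrank_eq_card_basis cκ
  set NB := finrank κ ((nilradical (κ ⊗[R] B)).restrictScalars κ) with hNB
  set NC := finrank κ ((nilradical (κ ⊗[R] C)).restrictScalars κ) with hNC
  have hZB := finrank_quot_nilradical_add (κ := κ) (F := κ ⊗[R] B)
  -- (i) the discriminant of `C`
  have h1 : s ^ NC ∣ Algebra.discr R c := by
    have hr := rank_traceMatrix_add_le cκ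
    rw [hcκ, traceMatrix_fibre c] at hr
    have := pow_dvd_det_of_rank_le (algebraMap R κ) hφ s hker (Algebra.traceMatrix R c)
      (Fintype.card ι - NC) (by omega)
    rw [Algebra.discr_def]
    have hle : NC ≤ Fintype.card ι := by omega
    rwa [Nat.sub_sub_self hle] at this
  -- (ii) the transition matrix
  set M := LinearMap.toMatrix b c f.toLinearMap with hM
  have h2 : s ^ (NB - NC) ∣ M.det := by
    let g : κ ⊗[R] B →ₐ[κ] κ ⊗[R] C := Algebra.TensorProduct.map (AlgHom.id κ κ) f
    have hg : g.toLinearMap = f.toLinearMap.baseChange κ := by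
      apply TensorProduct.AlgebraTensorModule.curry_injective
      ext x
      simp [g]
    have hmap : M.map (algebraMap R κ) = LinearMap.toMatrix bκ cκ g.toLinearMap := by
      rw [hg, hbκ, hcκ, LinearMap.toMatrix_baseChange]
    have hrank : (M.map (algebraMap R κ)).rank = finrank κ (LinearMap.range g.toLinearMap) := by
      rw [hmap, Matrix.rank_eq_finrank_range_toLin _ cκ bκ, Matrix.toLin_toMatrix]
    have hr := finrank_range_algHom_add_le g
    rw [← hrank, hnB] at hr
    have := pow_dvd_det_of_rank_le (algebraMap R κ) hφ s hker M
      (Fintype.card ι + NC - NB) (by omega)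
    have hle : NB ≤ Fintype.card ι := by omega
    have hexp : Fintype.card ι - (Fintype.card ι + NC - NB) = NB - NC := by omega
    rwa [hexp] at this
  have h3 := discr_eq_det_sq_mul b c f hf
  -- combine
  have h4 : s ^ (max (NB - NC) 1) ∣ M.det := by
    rcases le_total (NB - NC) 1 with h | h
    · rw [max_eq_right h, pow_one]; exact hdvd
    · rw [max_eq_left h]; exact h2
  have h5 : s ^ (2 * max (NB - NC) 1 + NC) ∣ Algebra.discr R b := by
    rw [h3, pow_add, pow_mul']
    exact mul_dvd_mul (pow_dvd_pow_of_dvd h4 2) h1
  have h6 : 2 * max (NB - NC) 1 + NC ≤ a := by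
    by_contra hcon
    exact ha ((pow_dvd_pow s (by omega)).trans h5)
  rcases le_total (NB - NC) 1 with h | h
  · rw [max_eq_right h] at h6; omega
  · rw [max_eq_left h] at h6; omega

end Main

end Fermat.Agent.S18.DED6052
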